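/-
S30 row / adic layer, piece ONTO (helper270), part 1: the REVERSE DICTIONARY.

If `u ∈ FF N` has all its orders (at all places of `FF N / ℚ̄`) divisible by `p` and `G` is a good
function realising `u` (landed `M4b.Realises`), then the order of vanishing of `G` at EVERY point
of `ℍ` is divisible by `p`.

No classification of places is needed: the Taylor expansion at `τ₀` gives an embedding
`σ : FF N → ℂ((z))` (landed S24 `sigmaG` of `taylorExpansion`), and `ord_z ∘ σ` is either trivial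
or a multiple of the order function of a place (landed `H117.exists_mult`).
-/
import Fermat.Agent.S29.M4b.Defs
import Fermat.Agent.S29.H332.Growth
import Fermat.Agent.S24.Mod
import Fermat.Agent.S24.Mod.H708QSubst
import Fermat.Agent.S24.H117.EmbPlace

set_option autoImplicit false

noncomputable section

open ModularCurve AlgebraicCurve CongruenceSubgroup UpperHalfPlane
open scoped MatrixGroups Manifold

namespace Fermat.Agent.S30.H270

open Fermat.Agent.S24 Fermat.Agent.S29 Fermat.Agent.S29.M4b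
open Fermat.Agent.S24.H648 Fermat.Agent.S24.H708 Fermat.Agent.S24.Deg457 Fermat.Agent.S24.H997
open Fermat.Agent.S24.H624

variable {N : ℕ} [NeZero N]

/-- The bridge function of `r ∈ R_N`, as a function on `ℍ`. -/
def bfun (r : RN N) : ℍ → ℂ := (((holBase N).bridge r : (holBase N).Hol) : ℍ → ℂ)

theorem bfun_mem_holN (r : RN N) : bfun r ∈ holN N := ((holBase N).bridge r).2

theorem bfun_mdiff (r : RN N) : MDifferentiable 𝓘(ℂ) 𝓘(ℂ) (bfun r) := (bfun_mem_holN r).1

theorem bfun_invariant (r : RN N) (γ : SL(2, ℤ)) (hγ : γ ∈ Gamma0 N) (τ : ℍ) :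
    bfun r (γ • τ) = bfun r τ := by
  have h := (holBase N).compH_bridge_of_mem hγ r
  have h2 := congrArg (fun f : (holBase N).Hol => (f : ℍ → ℂ) τ) h
  simpa [bfun] using h2

theorem bfun_mem_goodRing (r : RN N) : bfun r ∈ goodRing N :=
  H332.mem_goodRing_of_mem_holN (bfun_mem_holN r) (bfun_invariant r)

theorem bfun_mul (r s : RN N) : bfun (r * s) = bfun r * bfun s := by
  unfold bfun
  rw [map_mul]
  rfl

theorem bfun_pow (r : RN N) (n : ℕ) : bfun (r ^ n) = bfun r ^ n := by
  unfold bfun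
  rw [map_pow]
  rfl

theorem bfun_ne_zero {r : RN N} (hr : r ≠ 0) : bfun r ≠ 0 := by
  intro h
  apply hr
  apply (holBase N).bridge_injective
  rw [map_zero]
  apply Subtype.ext
  exact h

/-- **Realisation of polynomials.**  The bridge function of `r ∈ R_N = ℚ̄[j(q^d)]` has
`q`-expansion `r` (coefficients embedded by `iotaC`). -/
theorem hasQExp_bfun (r : RN N) :
    HasQExp 1 (bfun r) (coeffMap iotaC (r : LaurentSeries Kbar)) := by
  have h1 : HasQExp 1 (bfun r) (qexpFun 1 (bfun r)) :=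
    H882.hasQExp_of_mem_goodRing (bfun_mem_goodRing r)
  have h2 := h1.of_period_mul N
  rw [one_mul] at h2
  have h3 : HasQExp N (bfun r) ((holBase N).qexp ((holBase N).bridge r)) := by
    apply H332.hasQExp_of_infExp (bfun_mdiff r)
    exact expInf_spec (holToExp N ((holBase N).bridge r))
  rw [(holBase N).qexp_bridge r] at h3
  have h4 := h2.unique h3
  have h5 : qexpFun 1 (bfun r) = coeffMap iotaC (r : LaurentSeries Kbar) :=
    qExpand_injective N h4
  rw [← h5]
  exact h1

theorem realises_bfun (r : RN N) : Realises N (inclRN N r) (bfun r) :=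
  ⟨bfun_mem_goodRing r, (hasQExp_bfun r).qexpFun_eq⟩

/-- If `G` realises `u = r / s`, then `G · e(s) = e(r)` as functions on `ℍ`. -/
theorem realises_mul_bfun {u : FF N} {G : ℍ → ℂ} (hG : Realises N u G) (r s : RN N)
    (hs : s ≠ 0) (hu : u = inclRN N r / inclRN N s) : G * bfun s = bfun r := by
  have hs' : inclRN N s ≠ 0 := fun h => hs (inclRN_injective N (by rw [h, map_zero]))
  have h1 : HasQExp 1 G (coeffMap iotaC ((u : FF N) : LaurentSeries Kbar)) := by
    have := H882.hasQExp_of_mem_goodRing hG.1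
    rwa [hG.2] at this
  have h2 : ((u : FF N) : LaurentSeries Kbar) * (s : LaurentSeries Kbar)
      = (r : LaurentSeries Kbar) := by
    have h3 : u * inclRN N s = inclRN N r := by
      rw [hu, div_mul_cancel₀ _ hs']
    have h4 := congrArg (fun x : FF N => (x : LaurentSeries Kbar)) h3
    simpa using h4
  have h5 := h1.mul (hasQExp_bfun s)
  rw [← map_mul, h2] at h5
  exact h5.eq_of_eq (hasQExp_bfun r)

/-- The Taylor embedding `FF N → ℂ((z))` at `τ₀`. -/
def tayEmb (N : ℕ) [NeZero N] (τ₀ : ℍ) : FF N →+* LaurentSeries ℂ :=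
  (holBase N).sigmaG ((holBase N).taylorExpansion (holBase_isHolo N) τ₀) 1

theorem tayEmb_inclRN (τ₀ : ℍ) (r : RN N) :
    tayEmb N τ₀ (inclRN N r) = taylorLaurent τ₀ ⟨bfun r, bfun_mdiff r⟩ := by
  unfold tayEmb
  rw [HolBase.sigmaG_inclRN, inv_one, HolBase.compH_one]
  rfl

theorem tayEmb_algebraMap (τ₀ : ℍ) (c : Kbar) :
    tayEmb N τ₀ (algebraMap Kbar (FF N) c) = HahnSeries.C (ιK c) :=
  HolBase.sigmaG_algebraMap _ _ _ _

/-- The Taylor embedding of `u` is the Taylor series of any good function realising `u`. -/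
theorem tayEmb_eq_of_realises {u : FF N} {G : ℍ → ℂ} (hG : Realises N u G)
    (hGm : MDifferentiable 𝓘(ℂ) 𝓘(ℂ) G) (τ₀ : ℍ) :
    tayEmb N τ₀ u = taylorLaurent τ₀ ⟨G, hGm⟩ := by
  obtain ⟨r, s, hs, hu⟩ := exists_div_inclRN N u
  have hmul := realises_mul_bfun hG r s hs hu
  have hs' : taylorLaurent τ₀ ⟨bfun s, bfun_mdiff s⟩ ≠ 0 := by
    intro h
    have h0 : (⟨bfun s, bfun_mdiff s⟩ : holoRing) = 0 :=
      taylorLaurent_injective τ₀ (by rw [h, map_zero])
    exact bfun_ne_zero hs (congrArg Subtype.val h0)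
  have hprod : (⟨G, hGm⟩ : holoRing) * ⟨bfun s, bfun_mdiff s⟩ = ⟨bfun r, bfun_mdiff r⟩ :=
    Subtype.ext hmul
  rw [hu, map_div₀, tayEmb_inclRN, tayEmb_inclRN, ← hprod, map_mul, mul_div_assoc,
    div_self hs', mul_one]

/-- The order of the Taylor embedding is the analytic order of vanishing. -/
theorem order_tayEmb_of_realises {u : FF N} {G : ℍ → ℂ} (hG : Realises N u G) (τ₀ : ℍ)
    {n : ℕ} (hn : analyticOrderAt (G ∘ ofComplex) (τ₀ : ℂ) = (n : ℕ∞)) :
    (tayEmb N τ₀ u).order = (n : ℤ) := by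
  rw [tayEmb_eq_of_realises hG hG.1.1 τ₀, taylorLaurent_apply]
  apply order_ofPowerSeries
  rw [order_taylorAt, ordAt_def]
  exact hn

/-- A good function realising a nonzero element is not identically zero. -/
theorem ne_zero_of_realises {u : FF N} {G : ℍ → ℂ} (hG : Realises N u G) (hu : u ≠ 0) :
    G ≠ 0 := by
  intro h0
  apply hu
  have h1 : HasQExp 1 G (coeffMap iotaC ((u : FF N) : LaurentSeries Kbar)) := by
    have := H882.hasQExp_of_mem_goodRing hG.1
    rwa [hG.2] at this
  have h2 := h1.eq_zero_iff.mpr h0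
  apply Subtype.ext
  ext k
  have h3 := congrArg (fun x : LaurentSeries ℂ => x.coeff k) h2
  simp only [coeffMap_coeff, HahnSeries.coeff_zero] at h3
  have h4 : ((u : FF N) : LaurentSeries Kbar).coeff k = 0 :=
    iotaC.injective (by rw [h3, map_zero])
  simpa using h4

/-- The analytic order of a nonzero holomorphic function on `ℍ` is finite. -/
theorem exists_analyticOrderAt_eq {G : ℍ → ℂ} (hG : MDifferentiable 𝓘(ℂ) 𝓘(ℂ) G)
    (h0 : G ≠ 0) (τ₀ : ℍ) : ∃ n : ℕ, analyticOrderAt (G ∘ ofComplex) (τ₀ : ℂ) = (n : ℕ∞) := by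
  have h1 : taylorAt τ₀ ⟨G, hG⟩ ≠ 0 := by
    intro h
    have : (⟨G, hG⟩ : holoRing) = 0 := taylorAt_injective τ₀ (by rw [h, map_zero])
    exact h0 (congrArg Subtype.val this)
  have h2 := order_taylorAt τ₀ ⟨G, hG⟩
  rw [ordAt_def] at h2
  have h3 : (taylorAt τ₀ ⟨G, hG⟩).order ≠ ⊤ := by
    rw [Ne, PowerSeries.order_eq_top]
    exact h1
  obtain ⟨n, hn⟩ := ENat.ne_top_iff_exists.mp h3
  exact ⟨n, by rw [← h2, ← hn]⟩

/-- **Reverse dictionary.**  If all orders of `u ∈ FF N` at the places of `FF N / ℚ̄` are divisible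
by `p`, then a good function realising `u` vanishes to an order divisible by `p` at every point
of `ℍ`. -/
theorem dvd_analyticOrderAt_of_realises (p : ℕ) {u : FF N} (hu : u ≠ 0)
    (hp : ∀ v : Place Kbar (FF N), (p : ℤ) ∣ v.ord u) {G : ℍ → ℂ}
    (hG : Realises N u G) (τ₀ : ℍ) :
    ∃ m : ℕ, analyticOrderAt (G ∘ ofComplex) (τ₀ : ℂ) = ((p * m : ℕ) : ℕ∞) := by
  obtain ⟨n, hn⟩ := exists_analyticOrderAt_eq hG.1.1 (ne_zero_of_realises hG hu) τ₀
  have hord := order_tayEmb_of_realises hG τ₀ hn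
  have hK : ∀ c : Kbar, 0 ≤ H117.eord (tayEmb N τ₀) (algebraMap Kbar (FF N) c) := by
    intro c
    simp only [H117.eord, tayEmb_algebraMap, HahnSeries.order_C, le_refl]
  have hdvd : (p : ℤ) ∣ (n : ℤ) := by
    by_cases hnt : ∃ t : FF N, H117.eord (tayEmb N τ₀) t ≠ 0
    · obtain ⟨k, -, hk⟩ := H117.exists_mult (tayEmb N τ₀) hK hnt
      have h1 := hk u
      rw [H117.eord, hord] at h1
      rw [h1]
      exact Dvd.dvd.mul_left (hp _) _
    · push Not at hnt
      have h1 := hnt u
      rw [H117.eord, hord] at h1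
      rw [h1]
      exact dvd_zero _
  obtain ⟨m, hm⟩ := Int.natCast_dvd_natCast.mp hdvd
  exact ⟨m, by rw [hn, hm]⟩

end Fermat.Agent.S30.H270
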