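/-
S30 row / adic layer, piece ONTO (helper270), part 2: every torsion class is a Kummer class of a
character.

`exists_isKum_of_torsion` : for every `x ∈ J₀(N)(ℚ̄)` with `p • x = 0` (any modulus `p ≥ 1`) there is
an additive character `c : Γ₀(N) → ℤ/p` with `M4b.IsKum N p c x`.

Proof.  `p D = div f` (landed `H455`), `f = r / s` with `r, s ∈ R_N = ℚ̄[j(q^d)]`; the polynomial
`r s^(p-1) = f s^p` is realised by the good function `G = e(r s^(p-1))`, all of whose orders of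
vanishing on `ℍ` are divisible by `p` (reverse dictionary, `RevDict.lean`); `G = U ^ p` with `U`
holomorphic on `ℍ` (landed ROOT, `H751.exists_pow_eq_UHP`); `U ∘ γ` is another `p`-th root of
`G ∘ γ = G`, hence `U ∘ γ = ζ_p ^ c(γ) U`.
-/
import Fermat.Agent.S30.H270.RevDict
import Fermat.Agent.S29.H751.PthRootUHP

set_option autoImplicit false

noncomputable section

open ModularCurve AlgebraicCurve CongruenceSubgroup UpperHalfPlane
open scoped MatrixGroups Manifold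

namespace Fermat.Agent.S30.H270

open Fermat.Agent.S24 Fermat.Agent.S29 Fermat.Agent.S29.M4b
open Fermat.Agent.S24.H648 Fermat.Agent.S24.H708 Fermat.Agent.S24.Deg457 Fermat.Agent.S24.H997
open Fermat.Agent.S24.H624

variable {N : ℕ} [NeZero N]

theorem isPrimitiveRoot_zetaP (p : ℕ) [NeZero p] : IsPrimitiveRoot (zetaP p) p :=
  Complex.isPrimitiveRoot_exp p (NeZero.ne p)

omit [NeZero N] in
/-- A holomorphic `p`-th root of a `Γ₀(N)`-invariant function transforms by `p`-th roots of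
unity. -/
theorem exists_pow_zetaP_of_pow_eq (p : ℕ) [NeZero p] {G U : ℍ → ℂ}
    (hGinv : ∀ γ ∈ Gamma0 N, ∀ τ : ℍ, G (γ • τ) = G τ)
    (hU : MDifferentiable 𝓘(ℂ) 𝓘(ℂ) U) (hUp : ∀ τ : ℍ, U τ ^ p = G τ)
    {τ₁ : ℍ} (hτ₁ : U τ₁ ≠ 0) (γ : SL(2, ℤ)) (hγ : γ ∈ Gamma0 N) :
    ∃ k : ℕ, k < p ∧ ∀ τ : ℍ, U (γ • τ) = zetaP p ^ k * U τ := by
  have hp : p ≠ 0 := NeZero.ne p
  set ζ : ℂ := U (γ • τ₁) / U τ₁ with hζ
  have hζp : ζ ^ p = 1 := by
    rw [hζ, div_pow, hUp, hUp, hGinv γ hγ τ₁, div_self]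
    rw [← hUp]
    exact pow_ne_zero p hτ₁
  obtain ⟨k, hk, hkζ⟩ := (isPrimitiveRoot_zetaP p).eq_pow_of_pow_eq_one hζp
  refine ⟨k, hk, fun τ => ?_⟩
  have hA : MDifferentiable 𝓘(ℂ) 𝓘(ℂ) (fun τ : ℍ => U (γ • τ)) :=
    mdifferentiable_comp_smul hU γ
  have hB : MDifferentiable 𝓘(ℂ) 𝓘(ℂ) (fun τ : ℍ => ζ * U τ) :=
    mdifferentiable_const.mul hU
  have h0 : U (γ • τ₁) = ζ * U τ₁ := by
    rw [hζ, div_mul_cancel₀ _ hτ₁]
  have hne : U (γ • τ₁) ≠ 0 := by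
    intro h
    have h1 : U (γ • τ₁) ^ p = U τ₁ ^ p := by rw [hUp, hUp, hGinv γ hγ τ₁]
    rw [h, zero_pow hp] at h1
    exact hτ₁ (pow_eq_zero_iff hp |>.mp h1.symm)
  have key := H751.eq_of_pow_eq_UHP hA hB hp
    (fun τ => by
      show U (γ • τ) ^ p = (ζ * U τ) ^ p
      rw [mul_pow, hζp, one_mul, hUp, hUp, hGinv γ hγ τ])
    (τ₀ := τ₁) h0 hne
  have h1 : U (γ • τ) = ζ * U τ := congrFun key τ
  rw [h1, hkζ]

/-- **ONTO (weak form).**  Every `p`-torsion class of `J₀(N)(ℚ̄)` is the Kummer class of an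
additive character `Γ₀(N) → ℤ/p`. -/
theorem exists_isKum_of_torsion (N p : ℕ) [NeZero N] [NeZero p] (x : JZero N)
    (hx : (p : ℤ) • x = 0) :
    ∃ c : G0 N → ZMod p, (∀ γ γ' : G0 N, c (γ * γ') = c γ + c γ') ∧ IsKum N p c x := by
  classical
  have hp : p ≠ 0 := NeZero.ne p
  obtain ⟨f, hf⟩ := H455.exists_isKummerClass_of_zsmul_eq_zero hx
  have hf0 : f ≠ 0 := hf.ne_zero
  obtain ⟨r, s, hs, hfrs⟩ := exists_div_inclRN N f
  have hs' : inclRN N s ≠ 0 := fun h => hs (inclRN_injective N (by rw [h, map_zero]))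
  have hr : r ≠ 0 := by
    rintro rfl
    apply hf0
    rw [hfrs, map_zero, zero_div]
  -- the polynomial `w = r s^(p-1) = f s^p`
  set w : RN N := r * s ^ (p - 1) with hw
  have hw0 : w ≠ 0 := mul_ne_zero hr (pow_ne_zero _ hs)
  have hu : f * inclRN N s ^ p = inclRN N w := by
    rw [hw, map_mul, map_pow, hfrs]
    obtain ⟨q, rfl⟩ : ∃ q, p = q + 1 := ⟨p - 1, (Nat.sub_add_cancel (Nat.pos_of_ne_zero hp)).symm⟩
    rw [Nat.add_sub_cancel, pow_succ]
    field_simp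
  have hu0 : f * inclRN N s ^ p ≠ 0 := mul_ne_zero hf0 (pow_ne_zero _ hs')
  set G : ℍ → ℂ := bfun w with hG
  have hGreal : Realises N (f * inclRN N s ^ p) G := by
    rw [hu]
    exact realises_bfun w
  have hGm : MDifferentiable 𝓘(ℂ) 𝓘(ℂ) G := bfun_mdiff w
  -- divisibility of the orders at all places
  have hdvd : ∀ v : Place Kbar (FF N), (p : ℤ) ∣ v.ord (f * inclRN N s ^ p) := by
    intro v
    obtain ⟨-, D, -, hD⟩ := hf
    rw [Place.ord_mul v hf0 (pow_ne_zero _ hs'), ← hD v]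
    have h1 : v.ord (inclRN N s ^ p) = (p : ℤ) * v.ord (inclRN N s) := by
      have := Place.ord_zpow v (inclRN N s) (p : ℤ)
      rwa [zpow_natCast] at this
    rw [h1, ← mul_add]
    exact Dvd.intro _ rfl
  -- the `p`-th root
  obtain ⟨U, hU, hUp⟩ := H751.exists_pow_eq_UHP hGm p hp
    (fun τ => dvd_analyticOrderAt_of_realises p hu0 hdvd hGreal τ)
  have hG0 : G ≠ 0 := bfun_ne_zero hw0
  obtain ⟨τ₁, hτ₁⟩ : ∃ τ₁ : ℍ, G τ₁ ≠ 0 := by
    by_contra hcon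
    push Not at hcon
    exact hG0 (funext hcon)
  have hUτ₁ : U τ₁ ≠ 0 := by
    intro h
    apply hτ₁
    rw [← hUp, h, zero_pow hp]
  -- the character
  have hGinv : ∀ γ ∈ Gamma0 N, ∀ τ : ℍ, G (γ • τ) = G τ := fun γ hγ τ => bfun_invariant w γ hγ τ
  have hchar : ∀ γ : G0 N, ∃ k : ℕ, k < p ∧
      ∀ τ : ℍ, U ((γ : SL(2, ℤ)) • τ) = zetaP p ^ k * U τ := fun γ =>
    exists_pow_zetaP_of_pow_eq p hGinv hU hUp hUτ₁ γ γ.2
  choose k hk hkU using hchar
  let c : G0 N → ZMod p := fun γ => (k γ : ZMod p)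
  have hcval : ∀ γ, (c γ).val = k γ := fun γ => ZMod.val_natCast_of_lt (hk γ)
  have hchar' : HasChar N p c U := by
    intro γ τ
    rw [hcval]
    exact hkU γ τ
  refine ⟨c, ?_, f, inclRN N s, U, hs', ?_, ⟨hU, ⟨τ₁, hUτ₁⟩, hchar', ?_⟩, ?_⟩
  · -- additivity
    intro γ γ'
    have h1 : zetaP p ^ k (γ * γ') * U τ₁ = zetaP p ^ (k γ + k γ') * U τ₁ := by
      rw [← hkU (γ * γ') τ₁, pow_add, mul_assoc, ← hkU γ' τ₁, ← hkU γ]
      congr 1
      show ((γ : SL(2, ℤ)) * (γ' : SL(2, ℤ))) • τ₁ = _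
      rw [mul_smul]
    have h2 : zetaP p ^ k (γ * γ') = zetaP p ^ (k γ + k γ') := mul_right_cancel₀ hUτ₁ h1
    have h3 : k (γ * γ') ≡ k γ + k γ' [MOD p] := by
      have hfin : IsOfFinOrder (zetaP p) :=
        (isPrimitiveRoot_zetaP p).isOfFinOrder hp
      have := hfin.pow_eq_pow_iff_modEq.mp h2
      rwa [← (isPrimitiveRoot_zetaP p).eq_orderOf] at this
    show ((k (γ * γ') : ℕ) : ZMod p) = (k γ : ZMod p) + (k γ' : ZMod p)
    rw [← Nat.cast_add]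
    exact (ZMod.natCast_eq_natCast_iff _ _ _).mpr h3
  · exact ⟨hf0, hf.2⟩
  · have : (fun τ => U τ ^ p) = G := funext hUp
    rw [this]
    exact bfun_mem_goodRing w
  · have : (fun τ => U τ ^ p) = G := funext hUp
    rw [this]
    exact hGreal

end Fermat.Agent.S30.H270
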