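/-
S30 row / adic layer, piece FIN (helper270): finiteness of the torsion of `J₀(N)(ℚ̄)`.

`finite_torsion_of_unique` : `{x : J₀(N)(ℚ̄) | p • x = 0}` is finite (any modulus `p ≥ 1`), given the
uniqueness of Kummer classes (M4b piece `K4-UNIQ` = `isKum_unique`, taken as a hypothesis so that
this file does not depend on the owner of that piece).

Proof: by `Onto.lean` every torsion class `x` is the Kummer class of an additive character
`c : Γ₀(N) → ℤ/p`; by `K4-UNIQ`, `x` is determined by `c`; `Γ₀(N)` is finitely generated, so there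
are finitely many additive characters.
-/
import Fermat.Agent.S30.H270.Onto

set_option autoImplicit false

noncomputable section

open ModularCurve AlgebraicCurve CongruenceSubgroup UpperHalfPlane
open scoped MatrixGroups Manifold

namespace Fermat.Agent.S30.H270

open Fermat.Agent.S24 Fermat.Agent.S29 Fermat.Agent.S29.M4b

theorem fin_fg_SL2Z : Group.FG SL(2, ℤ) :=
  Group.fg_iff.mpr ⟨{ModularGroup.S, ModularGroup.T},
    SpecialLinearGroup.SL2Z_generators, Set.toFinite _⟩

theorem fin_fg_Gamma0 (N : ℕ) [NeZero N] : Group.FG (Gamma0 N) := by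
  have := fin_fg_SL2Z
  infer_instance

/-- Two additive maps on a group which agree on a generating set are equal. -/
theorem eq_of_additive_of_eqOn {G A : Type*} [Group G] [AddCommGroup A] {c c' : G → A}
    (hc : ∀ γ γ' : G, c (γ * γ') = c γ + c γ') (hc' : ∀ γ γ' : G, c' (γ * γ') = c' γ + c' γ')
    {S : Set G} (hS : Subgroup.closure S = ⊤) (h : ∀ γ ∈ S, c γ = c' γ) : c = c' := by
  have h1 : ∀ {d : G → A}, (∀ γ γ' : G, d (γ * γ') = d γ + d γ') → d 1 = 0 := by
    intro d hd
    have := hd 1 1
    rw [mul_one] at this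
    exact (add_eq_left.mp this.symm)
  have hinv : ∀ {d : G → A}, (∀ γ γ' : G, d (γ * γ') = d γ + d γ') → ∀ γ, d γ⁻¹ = -d γ := by
    intro d hd γ
    have := hd γ γ⁻¹
    rw [mul_inv_cancel, h1 hd] at this
    exact (neg_eq_of_add_eq_zero_right this.symm).symm
  funext γ
  have hγ : γ ∈ Subgroup.closure S := hS ▸ Subgroup.mem_top γ
  induction hγ using Subgroup.closure_induction with
  | mem x hx => exact h x hx
  | one => rw [h1 hc, h1 hc']
  | mul x y _ _ hx hy => rw [hc, hc', hx, hy]
  | inv x _ hx => rw [hinv hc, hinv hc', hx]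

/-- A finitely generated group has finitely many additive maps into a finite group. -/
theorem finite_additive {G A : Type*} [Group G] [Group.FG G] [AddCommGroup A] [Finite A] :
    {c : G → A | ∀ γ γ' : G, c (γ * γ') = c γ + c γ'}.Finite := by
  obtain ⟨S, hS, hSfin⟩ := Group.fg_iff.mp (inferInstance : Group.FG G)
  have : Finite S := hSfin.to_subtype
  let f : (G → A) → (S → A) := fun c s => c s
  refine Set.Finite.of_finite_image (f := f) (Set.toFinite _) ?_
  intro c hc c' hc' hcc'
  exact eq_of_additive_of_eqOn hc hc' hS (fun γ hγ => congrFun hcc' ⟨γ, hγ⟩)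

/-- **FIN.**  The `p`-torsion of `J₀(N)(ℚ̄)` is finite (given uniqueness of Kummer classes). -/
theorem finite_torsion_of_unique (N p : ℕ) [NeZero N] [NeZero p]
    (huniq : ∀ (c : G0 N → ZMod p) (x x' : JZero N), IsKum N p c x → IsKum N p c x' → x = x') :
    {x : JZero N | (p : ℤ) • x = 0}.Finite := by
  classical
  have : Group.FG (G0 N) := fin_fg_Gamma0 N
  have hfin : {c : G0 N → ZMod p | ∀ γ γ' : G0 N, c (γ * γ') = c γ + c γ'}.Finite :=
    finite_additive
  -- choose a character for every torsion class
  have hex : ∀ x : {x : JZero N | (p : ℤ) • x = 0},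
      ∃ c : G0 N → ZMod p, (∀ γ γ' : G0 N, c (γ * γ') = c γ + c γ') ∧ IsKum N p c x.1 :=
    fun x => exists_isKum_of_torsion N p x.1 x.2
  choose c hc hk using hex
  have hinj : Function.Injective c := by
    intro x x' h
    apply Subtype.ext
    exact huniq (c x) x.1 x'.1 (hk x) (h ▸ hk x')
  have : Finite {c : G0 N → ZMod p | ∀ γ γ' : G0 N, c (γ * γ') = c γ + c γ'} := hfin.to_subtype
  have hfin' : Finite {x : JZero N | (p : ℤ) • x = 0} :=
    Finite.of_injective (fun x => (⟨c x, hc x⟩ :
      {c : G0 N → ZMod p | ∀ γ γ' : G0 N, c (γ * γ') = c γ + c γ'}))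
      (fun x x' h => hinj (congrArg Subtype.val h))
  exact Set.toFinite _

/-- Natural-number form of **FIN**. -/
theorem finite_torsion_nsmul_of_unique (N p : ℕ) [NeZero N] [NeZero p]
    (huniq : ∀ (c : G0 N → ZMod p) (x x' : JZero N), IsKum N p c x → IsKum N p c x' → x = x') :
    {x : JZero N | p • x = 0}.Finite := by
  refine (finite_torsion_of_unique N p huniq).subset ?_
  intro x hx
  simp only [Set.mem_ofPred_eq] at hx ⊢
  rw [natCast_zsmul]
  exact hx

end Fermat.Agent.S30.H270
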